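import Fermat.Agent.H40.ORD.PairLattice
import Fermat.Agent.H84.ORD.NodalModelAPI
import Fermat.Agent.H66.ESD.GaussLattice2

/-!
# P-ORD, block B1-LATT (helper40): `NmLatticeStatement M p`, unconditional

The pair lattice property (M5) for the concrete nodal data of `X₀(M p)` (helper84's
`Fermat.Agent.H84.ORD.NodalModel`): `V_∞ = gaussOBar (M p) A`, `V_0 = W⁻¹ V_∞`.

* `nm_oneLattice_oo`   : the one-valuation lattice property at `V_∞`, from helper66's (G3)
  `Fermat.Agent.H66.gaussLattice` applied to the plane `⟨1, f⟩`;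
* `nm_oneLattice_zero` : the same at `V_0`, by transport along the Atkin-Lehner automorphism;
* `nmLattice : NmLatticeStatement M p` : by `pairLattice_of_one`.
-/

set_option autoImplicit false
set_option linter.unusedSectionVars false
set_option synthInstance.maxHeartbeats 400000

noncomputable section

open AlgebraicCurve ModularCurve

namespace Fermat.Agent.H40.ORD

open Fermat.Agent.H72.FF Fermat.Agent.H18.ORD Fermat.Agent.H66 Fermat.Agent.H84.ORD

theorem nm_red_const_oo (N : ℕ) (A : ValuationSubring Qb) (c : A)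
    (h : algebraMap Qb (FLb N) (c : Qb) ∈ gaussOBar N A) :
    nmRedOo N A ⟨_, h⟩ = algebraMap (kRes A) (NmF N A) (IsLocalRing.residue A c) := by
  apply Subtype.ext
  rw [coe_nmRedOo, coe_nmAlgebraMap]
  exact gaussRedBar_algebraMap N A c.2

/-- The one-valuation lattice property at `V_∞ = gaussOBar N A` (any level `N`). -/
theorem nm_oneLattice_oo (N : ℕ) [NeZero N] (ℓ : ℕ) [Fact ℓ.Prime] (A : ValuationSubring Qb)
    (hA : A.LiesOverPrime ℓ) : OneLattice A (gaussOBar N A) (nmRedOo N A) := by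
  refine oneLattice_of_G3 (gaussOBar N A) (nmRedOo N A)
    (fun c => algebraMap_mem_gaussOBar_iff N A c) (nm_red_const_oo N A) ?_
  intro W hW
  obtain ⟨u, huW, huli⟩ := gaussLattice N ℓ A hA W hW
  refine ⟨u, huW, ?_⟩
  intro g hsum
  rw [Fintype.linearIndependent_iff] at huli
  refine huli g ?_
  have h3 : (nmResField N A).val
      (∑ i, algebraMap (kRes A) (NmF N A) (g i) * nmRedOo N A (u i)) = 0 := by
    rw [hsum, map_zero]
  rw [← h3, map_sum]
  refine Finset.sum_congr rfl fun i _ => ?_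
  have hC : algebraMap (kRes A) (LaurentSeries (kRes A)) (g i) = HahnSeries.C (g i) := by
    have h1 : algebraMap (kRes A) (PowerSeries (kRes A)) (g i) = PowerSeries.C (g i) := by simp
    rw [HahnSeries.algebraMap_apply', h1, HahnSeries.ofPowerSeries_C]
  rw [map_mul, ← HahnSeries.C_mul_eq_smul, ← hC]
  exact congrArg₂ (· * ·) ((nmResField N A).val.commutes (g i)).symm rfl

section AL

variable (M p : ℕ) [NeZero M] [NeZero p] (hcop : Nat.Coprime M p) (A : ValuationSubring Qb)

theorem nm_const_zero (c : Qb) (hc : c ∈ A) :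
    algebraMap Qb (FLb (M * p)) c ∈ nmV0 M p hcop A := by
  rw [mem_nmV0_iff, AlgEquiv.commutes]
  exact (algebraMap_mem_gaussOBar_iff (M * p) A c).mpr hc

theorem nm_red_const_zero (c : A)
    (h : algebraMap Qb (FLb (M * p)) (c : Qb) ∈ nmV0 M p hcop A) :
    nmRed0 M p hcop A ⟨_, h⟩ =
      algebraMap (kRes A) (NmF (M * p) A) (IsLocalRing.residue A c) := by
  rw [nmRed0_apply]
  have h' : algebraMap Qb (FLb (M * p)) (c : Qb) ∈ gaussOBar (M * p) A :=
    (algebraMap_mem_gaussOBar_iff (M * p) A c).mpr c.2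
  rw [← nm_red_const_oo (M * p) A c h']
  congr 1
  apply Subtype.ext
  exact AlgEquiv.commutes _ _

/-- The one-valuation lattice property at `V_0 = W⁻¹ V_∞`. -/
theorem nm_oneLattice_zero (ℓ : ℕ) [Fact ℓ.Prime] (hA : A.LiesOverPrime ℓ) :
    OneLattice A (nmV0 M p hcop A) (nmRed0 M p hcop A) := by
  intro f hf
  have hWf : ∀ c : Qb, nmW M p hcop f ≠ algebraMap Qb (FLb (M * p)) c := by
    intro c h
    refine hf c ((nmW M p hcop).injective ?_)
    rw [h, AlgEquiv.commutes]
  obtain ⟨α, β, h, hα, hne⟩ := nm_oneLattice_oo (M * p) ℓ A hA (nmW M p hcop f) hWf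
  have hW : nmW M p hcop (algebraMap Qb (FLb (M * p)) α * f + algebraMap Qb (FLb (M * p)) β) =
      algebraMap Qb (FLb (M * p)) α * nmW M p hcop f + algebraMap Qb (FLb (M * p)) β := by
    rw [map_add, map_mul, AlgEquiv.commutes, AlgEquiv.commutes]
  have hmem : algebraMap Qb (FLb (M * p)) α * f + algebraMap Qb (FLb (M * p)) β ∈
      nmV0 M p hcop A := by
    rw [mem_nmV0_iff, hW]
    exact h
  refine ⟨α, β, hmem, hα, fun κ hκ => hne κ ?_⟩
  rw [← hκ, nmRed0_apply]
  congr 1
  exact Subtype.ext hW.symm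

end AL

/-- **B1-LATT** : the pair lattice property (M5) of the nodal data of `X₀(M p)`,
unconditionally. -/
theorem nmLattice (M p : ℕ) [NeZero M] [NeZero p] : NmLatticeStatement M p := by
  intro A h f hf
  have : Fact p.Prime := ⟨h.prime⟩
  exact pairLattice_of_one (A := A) (gaussOBar (M * p) A) (nmV0 M p h.cop A)
    (nmRedOo (M * p) A) (nmRed0 M p h.cop A)
    (fun c hc => (algebraMap_mem_gaussOBar_iff (M * p) A c).mpr hc)
    (nm_const_zero M p h.cop A) (nm_red_const_oo (M * p) A) (nm_red_const_zero M p h.cop A)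
    (nm_oneLattice_oo (M * p) p A h.liesOver) (nm_oneLattice_zero M p h.cop A p h.liesOver)
    f hf

end Fermat.Agent.H40.ORD
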