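import Fermat.Agent.H40.ORD.OrdinaryAlg

/-!
# P-ORD (S33): subgroups without trivial subquotients (Mathlib only)

`M` an additive group with additive operators `act σ`, `σ ∈ I`.  A subgroup `W ≤ M` *has no
trivial subquotient* (`NoTrivAdd act I W`) if every pair of subgroups `Z ≤ Z' ≤ W` with `Z`
stable under `I` and `(σ - 1) Z' ⊆ Z` for all `σ ∈ I` satisfies `Z' = Z`.

The property passes to subgroups (`NoTrivAdd.mono`), to equivariant images (`NoTrivAdd.map`), to
sums of stable subgroups (`NoTrivAdd.sup`, `NoTrivAdd.iSup`), and it gives `NoTrivSubquotMod`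
for a representation which embeds equivariantly, modulo `𝔞 V`
(`noTrivSubquotMod_of_embedding`).
-/

set_option autoImplicit false

open Module

namespace Fermat.Agent.H40.ORD

variable {G : Type*}

section add

variable {M : Type*} [AddCommGroup M] {M' : Type*} [AddCommGroup M']

/-- stability of a subgroup under the operators `act σ`, `σ ∈ I` -/
def StableAdd (act : G → M →+ M) (I : Set G) (W : AddSubgroup M) : Prop :=
  ∀ σ ∈ I, ∀ w ∈ W, act σ w ∈ W

/-- **no trivial subquotient** -/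
def NoTrivAdd (act : G → M →+ M) (I : Set G) (W : AddSubgroup M) : Prop :=
  ∀ Z Z' : AddSubgroup M, Z ≤ Z' → Z' ≤ W → StableAdd act I Z →
    (∀ σ ∈ I, ∀ z ∈ Z', act σ z - z ∈ Z) → Z' ≤ Z

theorem StableAdd.inf {act : G → M →+ M} {I : Set G} {W₁ W₂ : AddSubgroup M}
    (h₁ : StableAdd act I W₁) (h₂ : StableAdd act I W₂) : StableAdd act I (W₁ ⊓ W₂) :=
  fun σ hσ w hw => ⟨h₁ σ hσ w hw.1, h₂ σ hσ w hw.2⟩

theorem StableAdd.sup {act : G → M →+ M} {I : Set G} {W₁ W₂ : AddSubgroup M}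
    (h₁ : StableAdd act I W₁) (h₂ : StableAdd act I W₂) : StableAdd act I (W₁ ⊔ W₂) := by
  intro σ hσ w hw
  obtain ⟨w₁, hw₁, w₂, hw₂, rfl⟩ := AddSubgroup.mem_sup.mp hw
  rw [map_add]
  exact AddSubgroup.add_mem _ (AddSubgroup.mem_sup_left (h₁ σ hσ w₁ hw₁))
    (AddSubgroup.mem_sup_right (h₂ σ hσ w₂ hw₂))

theorem StableAdd.sub_mem {act : G → M →+ M} {I : Set G} {W : AddSubgroup M}
    (h : StableAdd act I W) {σ : G} (hσ : σ ∈ I) {w : M} (hw : w ∈ W) : act σ w - w ∈ W :=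
  W.sub_mem (h σ hσ w hw) hw

theorem NoTrivAdd.mono {act : G → M →+ M} {I : Set G} {W W' : AddSubgroup M}
    (h : NoTrivAdd act I W) (hW : W' ≤ W) : NoTrivAdd act I W' :=
  fun Z Z' hZ hZ' hst htr => h Z Z' hZ (hZ'.trans hW) hst htr

/-- the property passes to equivariant images -/
theorem NoTrivAdd.map {act : G → M →+ M} {act' : G → M' →+ M'} {I : Set G} {W : AddSubgroup M}
    (h : NoTrivAdd act I W) (hW : StableAdd act I W) (f : M →+ M')
    (hf : ∀ σ ∈ I, ∀ m : M, f (act σ m) = act' σ (f m)) : NoTrivAdd act' I (W.map f) := by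
  intro Z Z' hZ hZ' hst htr
  have key : Z'.comap f ⊓ W ≤ Z.comap f ⊓ W := by
    apply h _ _ (inf_le_inf_right W (AddSubgroup.comap_mono hZ)) inf_le_right
    · intro σ hσ z hz
      refine ⟨?_, hW σ hσ z hz.2⟩
      show f (act σ z) ∈ Z
      rw [hf σ hσ]
      exact hst σ hσ _ hz.1
    · intro σ hσ z hz
      refine ⟨?_, hW.sub_mem hσ hz.2⟩
      show f (act σ z - z) ∈ Z
      rw [map_sub, hf σ hσ]
      exact htr σ hσ _ hz.1
  intro z' hz'
  obtain ⟨w, hw, rfl⟩ := hZ' hz'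
  exact (key ⟨hz', hw⟩).1

/-- the property passes to the sum of two stable subgroups -/
theorem NoTrivAdd.sup {act : G → M →+ M} {I : Set G} {W₁ W₂ : AddSubgroup M}
    (h₁ : NoTrivAdd act I W₁) (h₂ : NoTrivAdd act I W₂) (hW₁ : StableAdd act I W₁)
    (hW₂ : StableAdd act I W₂) : NoTrivAdd act I (W₁ ⊔ W₂) := by
  intro Z Z' hZ hZ' hst htr
  -- step 1: `Z' ⊓ W₁ ≤ Z`
  have s1 : Z' ⊓ W₁ ≤ Z ⊓ W₁ := by
    apply h₁ _ _ (inf_le_inf_right W₁ hZ) inf_le_right (hst.inf hW₁)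
    intro σ hσ z hz
    exact ⟨htr σ hσ z hz.1, hW₁.sub_mem hσ hz.2⟩
  -- step 2: `(Z' ⊔ W₁) ⊓ W₂ ≤ Z ⊔ W₁`
  have s2 : (Z' ⊔ W₁) ⊓ W₂ ≤ (Z ⊔ W₁) ⊓ W₂ := by
    apply h₂ _ _ (inf_le_inf_right W₂ (sup_le_sup_right hZ W₁)) inf_le_right
      ((hst.sup hW₁).inf hW₂)
    intro σ hσ y hy
    refine ⟨?_, hW₂.sub_mem hσ hy.2⟩
    obtain ⟨z', hz', w₁, hw₁, rfl⟩ := AddSubgroup.mem_sup.mp hy.1
    have e : act σ (z' + w₁) - (z' + w₁) = (act σ z' - z') + (act σ w₁ - w₁) := by
      rw [map_add]; abel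
    rw [e]
    exact AddSubgroup.add_mem _ (AddSubgroup.mem_sup_left (htr σ hσ z' hz'))
      (AddSubgroup.mem_sup_right (hW₁.sub_mem hσ hw₁))
  intro z' hz'
  obtain ⟨w₁, hw₁, w₂, hw₂, rfl⟩ := AddSubgroup.mem_sup.mp (hZ' hz')
  have hw₂' : w₂ ∈ (Z' ⊔ W₁) ⊓ W₂ := by
    refine ⟨?_, hw₂⟩
    have e : w₂ = (w₁ + w₂) + (-w₁) := by abel
    rw [e]
    exact AddSubgroup.add_mem _ (AddSubgroup.mem_sup_left hz')
      (AddSubgroup.mem_sup_right (W₁.neg_mem hw₁))
  obtain ⟨z, hz, w₁', hw₁', hsum⟩ := AddSubgroup.mem_sup.mp (s2 hw₂').1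
  -- `w₁ + w₂ = z + (w₁ + w₁')`
  have hmem : w₁ + w₁' ∈ Z' ⊓ W₁ := by
    refine ⟨?_, W₁.add_mem hw₁ hw₁'⟩
    have e : w₁ + w₁' = (w₁ + w₂) - z := by rw [← hsum]; abel
    rw [e]
    exact Z'.sub_mem hz' (hZ hz)
  have e : w₁ + w₂ = z + (w₁ + w₁') := by rw [← hsum]; abel
  rw [e]
  exact Z.add_mem hz (s1 hmem).1

theorem noTrivAdd_bot (act : G → M →+ M) (I : Set G) : NoTrivAdd act I (⊥ : AddSubgroup M) := by
  intro Z Z' _ hZ' _ _
  exact hZ'.trans bot_le

theorem stableAdd_bot (act : G → M →+ M) (I : Set G) : StableAdd act I (⊥ : AddSubgroup M) := by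
  intro σ _ w hw
  rw [AddSubgroup.mem_bot] at hw ⊢
  rw [hw, map_zero]

theorem stableAdd_finset_sup {ι : Type*} {act : G → M →+ M} {I : Set G}
    (W : ι → AddSubgroup M) (hW : ∀ i, StableAdd act I (W i)) (s : Finset ι) :
    StableAdd act I (s.sup W) := by
  classical
  induction s using Finset.induction_on with
  | empty => rw [Finset.sup_empty]; exact stableAdd_bot act I
  | insert i s _ ih => rw [Finset.sup_insert]; exact (hW i).sup ih

theorem noTrivAdd_finset_sup {ι : Type*} {act : G → M →+ M} {I : Set G}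
    (W : ι → AddSubgroup M) (h : ∀ i, NoTrivAdd act I (W i)) (hW : ∀ i, StableAdd act I (W i))
    (s : Finset ι) : NoTrivAdd act I (s.sup W) := by
  classical
  induction s using Finset.induction_on with
  | empty => rw [Finset.sup_empty]; exact noTrivAdd_bot act I
  | insert i s _ ih =>
    rw [Finset.sup_insert]
    exact (h i).sup ih (hW i) (stableAdd_finset_sup W hW s)

theorem exists_finset_of_mem_iSup {ι : Type*} (W : ι → AddSubgroup M) {x : M}
    (hx : x ∈ ⨆ i, W i) : ∃ s : Finset ι, x ∈ s.sup W := by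
  classical
  induction hx using AddSubgroup.iSup_induction' with
  | hp i x hx =>
    exact ⟨{i}, by rw [Finset.sup_singleton]; exact hx⟩
  | h1 => exact ⟨∅, AddSubgroup.zero_mem _⟩
  | hadd x y _ _ hx hy =>
    obtain ⟨s, hs⟩ := hx
    obtain ⟨t, ht⟩ := hy
    refine ⟨s ∪ t, AddSubgroup.add_mem _ ?_ ?_⟩
    · exact (Finset.sup_mono Finset.subset_union_left : s.sup W ≤ (s ∪ t).sup W) hs
    · exact (Finset.sup_mono Finset.subset_union_right : t.sup W ≤ (s ∪ t).sup W) ht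

/-- the property passes to arbitrary sums of stable subgroups -/
theorem NoTrivAdd.iSup {ι : Type*} {act : G → M →+ M} {I : Set G}
    (W : ι → AddSubgroup M) (h : ∀ i, NoTrivAdd act I (W i)) (hW : ∀ i, StableAdd act I (W i)) :
    NoTrivAdd act I (⨆ i, W i) := by
  intro Z Z' hZ hZ' hst htr z' hz'
  obtain ⟨s, hs⟩ := exists_finset_of_mem_iSup W (hZ' hz')
  have hWs := stableAdd_finset_sup W hW s
  have key : Z' ⊓ s.sup W ≤ Z ⊓ s.sup W := by
    apply noTrivAdd_finset_sup W h hW s _ _ (inf_le_inf_right _ hZ) inf_le_right (hst.inf hWs)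
    intro σ hσ z hz
    exact ⟨htr σ hσ z hz.1, hWs.sub_mem hσ hz.2⟩
  exact (key ⟨hz', hs⟩).1

end add

section embedding

variable [Group G] {T : Type*} [CommRing T] {V : Type*} [AddCommGroup V] [Module T V]
  {M : Type*} [AddCommGroup M]

/-- the augmentation submodule is the additive subgroup generated by the `σ v - v` -/
theorem augSub_toAddSubgroup (ρ : G →* Module.End T V) (I : Subgroup G) :
    (augSub ρ I).toAddSubgroup = AddSubgroup.closure {x | ∃ σ ∈ I, ∃ v : V, x = ρ σ v - v} := by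
  have hsmul : ∀ (a : T) (x : V),
      x ∈ AddSubgroup.closure {x | ∃ σ ∈ I, ∃ v : V, x = ρ σ v - v} →
      a • x ∈ AddSubgroup.closure {x | ∃ σ ∈ I, ∃ v : V, x = ρ σ v - v} := by
    intro a x hx
    induction hx using AddSubgroup.closure_induction with
    | mem y hy =>
      obtain ⟨σ, hσ, v, rfl⟩ := hy
      refine AddSubgroup.subset_closure ⟨σ, hσ, a • v, ?_⟩
      rw [map_smul, smul_sub]
    | zero => rw [smul_zero]; exact AddSubgroup.zero_mem _
    | add y z _ _ hy hz => rw [smul_add]; exact AddSubgroup.add_mem _ hy hz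
    | neg y _ hy => rw [smul_neg]; exact AddSubgroup.neg_mem _ hy
  apply le_antisymm
  · intro x hx
    have hx' : x ∈ Submodule.span T {x | ∃ σ ∈ I, ∃ v : V, x = ρ σ v - v} := hx
    clear hx
    induction hx' using Submodule.span_induction with
    | mem x hx => exact AddSubgroup.subset_closure hx
    | zero => exact AddSubgroup.zero_mem _
    | add x y _ _ hx hy => exact AddSubgroup.add_mem _ hx hy
    | smul a x _ hx => exact hsmul a x hx
  · rw [AddSubgroup.closure_le]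
    rintro x ⟨σ, hσ, v, rfl⟩
    exact sub_mem_augSub ρ I hσ v

/-- **From an embedding.**  If `V / 𝔞 V` embeds `I`-equivariantly into an additive group `M`
with operators, and a subgroup `W ≤ M` containing the `(σ - 1) f v` has no trivial subquotient,
then `NoTrivSubquotMod ρ I 𝔞` holds. -/
theorem noTrivSubquotMod_of_embedding (ρ : G →* Module.End T V) (I : Subgroup G) (𝔞 : Ideal T)
    (act : G → M →+ M) (f : V →+ M)
    (hf : ∀ σ ∈ I, ∀ v : V, f (ρ σ v) = act σ (f v))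
    (hkill : ∀ v ∈ 𝔞 • (⊤ : Submodule T V), f v = 0)
    (hker : ∀ v : V, f v = 0 → v ∈ 𝔞 • (⊤ : Submodule T V))
    (W : AddSubgroup M) (hW : ∀ σ ∈ I, ∀ v : V, act σ (f v) - f v ∈ W)
    (hNT : NoTrivAdd act (I : Set G) W) : NoTrivSubquotMod ρ I 𝔞 := by
  intro Y Y' h𝔞 hYY' hY' hst htr
  have hfL : ∀ x ∈ augSub ρ I, f x ∈ W := by
    intro x hx
    have hx' : x ∈ (augSub ρ I).toAddSubgroup := hx
    rw [augSub_toAddSubgroup] at hx'
    clear hx
    induction hx' using AddSubgroup.closure_induction with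
    | mem y hy =>
      obtain ⟨σ, hσ, v, rfl⟩ := hy
      rw [map_sub, hf σ hσ]
      exact hW σ hσ v
    | zero => rw [map_zero]; exact W.zero_mem
    | add y z _ _ hy hz => rw [map_add]; exact W.add_mem hy hz
    | neg y _ hy => rw [map_neg]; exact W.neg_mem hy
  have key : Y'.toAddSubgroup.map f ≤ Y.toAddSubgroup.map f := by
    apply hNT _ _ (AddSubgroup.map_mono (fun x hx => hYY' hx))
    · rintro _ ⟨y', hy', rfl⟩
      obtain ⟨l, hl, a, ha, rfl⟩ := Submodule.mem_sup.mp (hY' hy')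
      rw [map_add, hkill a ha, add_zero]
      exact hfL l hl
    · rintro σ hσ _ ⟨y, hy, rfl⟩
      exact ⟨ρ σ y, hst σ hσ y hy, hf σ hσ y⟩
    · rintro σ hσ _ ⟨y', hy', rfl⟩
      exact ⟨ρ σ y' - y', htr σ hσ y' hy', by rw [map_sub, hf σ hσ]⟩
  intro y' hy'
  obtain ⟨y, hy, hfy⟩ := key ⟨y', hy', rfl⟩
  have h0 : f (y' - y) = 0 := by rw [map_sub, hfy, sub_self]
  have e : y' = y + (y' - y) := by abel
  rw [e]
  exact Y.add_mem hy (h𝔞 (hker _ h0))

end embedding

end Fermat.Agent.H40.ORD
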