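import Mathlib

/-!
# P-ORD (S33): the algebraic core of ordinarity (Mathlib only)

`T` a noetherian local ring, `V` a free `T`-module of rank two with a `T`-linear action `ρ` of a
group `G`, `I ≤ G` a subgroup ("inertia"), `D ≤ G` a subgroup normalising `I` ("decomposition
group").  `augSub ρ I` is the augmentation submodule `(I - 1) V`.

`ordinary_of_noTrivSubquot`: if
* residually, `(σ - 1) V ⊆ T b₀ + 𝔪 V` for `σ ∈ I` (the residual representation is ordinary),
* `I` acts non-trivially on `V / 𝔪 V`,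
* for every `n` there is an ideal `𝔞 ≤ 𝔪 ^ n` such that, modulo `𝔞 V`, the augmentation
  submodule has no non-zero `I`-stable subquotient with trivial `I`-action
  (`NoTrivSubquotMod ρ I 𝔞`),
then `augSub ρ I = T e₀` for a basis `(e₀, e₁)` of `V`, it is `D`-stable, and `I` acts trivially
on the quotient: this is the shape of the prelude's `GaloisRepAdic.IsOrdinaryAt`.

No counting of Jordan-Hoelder constituents is needed: the hypothesis is applied to the single
pair `Y = 𝔪 L + 𝔞 V ≤ Y' = Y + 𝔟 b₁`, where `L = T e₀ ⊕ 𝔟 b₁`, and Nakayama gives `𝔟 ≤ 𝔞`.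
-/

set_option autoImplicit false

open Module

namespace Fermat.Agent.H40.ORD

variable {T : Type*} [CommRing T] {V : Type*} [AddCommGroup V] [Module T V]
  {G : Type*} [Group G]

/-- the augmentation submodule `(I - 1) V` -/
def augSub (ρ : G →* Module.End T V) (I : Subgroup G) : Submodule T V :=
  Submodule.span T {x | ∃ σ ∈ I, ∃ v : V, x = ρ σ v - v}

theorem sub_mem_augSub (ρ : G →* Module.End T V) (I : Subgroup G) {σ : G} (hσ : σ ∈ I) (v : V) :
    ρ σ v - v ∈ augSub ρ I :=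
  Submodule.subset_span ⟨σ, hσ, v, rfl⟩

/-- the augmentation submodule is stable under every element normalising `I` -/
theorem map_mem_augSub (ρ : G →* Module.End T V) (I : Subgroup G) (g : G)
    (hg : ∀ σ ∈ I, g * σ * g⁻¹ ∈ I) {x : V} (hx : x ∈ augSub ρ I) : ρ g x ∈ augSub ρ I := by
  unfold augSub at hx
  induction hx using Submodule.span_induction with
  | mem x hx =>
    obtain ⟨σ, hσ, v, rfl⟩ := hx
    have e : ρ g (ρ σ v - v) = ρ (g * σ * g⁻¹) (ρ g v) - ρ g v := by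
      rw [map_sub, map_mul, map_mul, Module.End.mul_apply, Module.End.mul_apply,
        ← Module.End.mul_apply (ρ g⁻¹), ← map_mul, inv_mul_cancel, map_one, Module.End.one_apply]
    rw [e]
    exact sub_mem_augSub ρ I (hg σ hσ) _
  | zero => rw [map_zero]; exact Submodule.zero_mem _
  | add x y _ _ hx hy => rw [map_add]; exact Submodule.add_mem _ hx hy
  | smul a x _ hx => rw [map_smul]; exact Submodule.smul_mem _ a hx

/-- **No trivial subquotient modulo `𝔞`.**  Modulo `𝔞 V`, the augmentation submodule has no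
non-zero `I`-stable subquotient on which `I` acts trivially. -/
def NoTrivSubquotMod (ρ : G →* Module.End T V) (I : Subgroup G) (𝔞 : Ideal T) : Prop :=
  ∀ Y Y' : Submodule T V, 𝔞 • (⊤ : Submodule T V) ≤ Y → Y ≤ Y' →
    Y' ≤ augSub ρ I ⊔ 𝔞 • (⊤ : Submodule T V) →
    (∀ σ ∈ I, ∀ y ∈ Y, ρ σ y ∈ Y) → (∀ σ ∈ I, ∀ y ∈ Y', ρ σ y - y ∈ Y) → Y' ≤ Y

section aux

/-- linear functionals map `𝔞 V` into `𝔞` -/
theorem apply_mem_of_mem_smul_top (𝔞 : Ideal T) (φ : V →ₗ[T] T) {x : V}
    (hx : x ∈ 𝔞 • (⊤ : Submodule T V)) : φ x ∈ 𝔞 := by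
  induction hx using Submodule.smul_induction_on' with
  | smul a ha v _ =>
    rw [map_smul, smul_eq_mul]
    exact 𝔞.mul_mem_right _ ha
  | add x _ y _ hx hy =>
    rw [map_add]
    exact 𝔞.add_mem hx hy

/-- a vector all of whose coordinates lie in `𝔞` lies in `𝔞 V` -/
theorem mem_smul_top_of_repr (𝔞 : Ideal T) (b : Basis (Fin 2) T V) {x : V}
    (h0 : b.repr x 0 ∈ 𝔞) (h1 : b.repr x 1 ∈ 𝔞) : x ∈ 𝔞 • (⊤ : Submodule T V) := by
  have e : x = b.repr x 0 • b 0 + b.repr x 1 • b 1 := by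
    conv_lhs => rw [← b.sum_repr x]
    rw [Fin.sum_univ_two]
  rw [e]
  exact Submodule.add_mem _ (Submodule.smul_mem_smul h0 Submodule.mem_top)
    (Submodule.smul_mem_smul h1 Submodule.mem_top)

/-- a linear endomorphism preserving `N` preserves `𝔞 • N` -/
theorem map_mem_smul (𝔞 : Ideal T) (N : Submodule T V) (f : Module.End T V)
    (hf : ∀ x ∈ N, f x ∈ N) {x : V} (hx : x ∈ 𝔞 • N) : f x ∈ 𝔞 • N := by
  induction hx using Submodule.smul_induction_on' with
  | smul a ha v hv =>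
    rw [map_smul]
    exact Submodule.smul_mem_smul ha (hf v hv)
  | add x _ y _ hx hy =>
    rw [map_add]
    exact Submodule.add_mem _ hx hy

end aux

section main

variable [IsLocalRing T] [IsNoetherianRing T]

open IsLocalRing

/-- the key step: the "defect ideal" of the augmentation submodule is contained in every ideal
`𝔞` modulo which there is no trivial subquotient -/
theorem defect_le (ρ : G →* Module.End T V) (I : Subgroup G) (b₁ : V) (φ : V →ₗ[T] T)
    (hφ1 : φ b₁ = 1)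
    (h𝔟 : (augSub ρ I).map φ ≤ maximalIdeal T)
    (hb₁ : ∀ t ∈ (augSub ρ I).map φ, t • b₁ ∈ augSub ρ I)
    (𝔞 : Ideal T) (hNTS : NoTrivSubquotMod ρ I 𝔞) :
    (augSub ρ I).map φ ≤ 𝔞 := by
  set L := augSub ρ I with hL
  set 𝔟 : Ideal T := L.map φ with h𝔟def
  have hLst : ∀ σ ∈ I, ∀ x ∈ L, ρ σ x ∈ L := fun σ hσ x hx =>
    map_mem_augSub ρ I σ (fun τ hτ => I.mul_mem (I.mul_mem hσ hτ) (I.inv_mem hσ)) hx
  -- the two submodules
  let Y : Submodule T V := maximalIdeal T • L ⊔ 𝔞 • (⊤ : Submodule T V)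
  let Z : Submodule T V := 𝔟 • Submodule.span T {b₁}
  have hZL : Z ≤ L := by
    refine Submodule.smul_le.mpr fun t ht w hw => ?_
    obtain ⟨s, rfl⟩ := Submodule.mem_span_singleton.mp hw
    rw [smul_comm]
    exact Submodule.smul_mem _ s (hb₁ t ht)
  have hYst : ∀ σ ∈ I, ∀ y ∈ Y, ρ σ y ∈ Y := by
    intro σ hσ y hy
    obtain ⟨y₁, hy₁, y₂, hy₂, rfl⟩ := Submodule.mem_sup.mp hy
    rw [map_add]
    exact Submodule.add_mem _
      (Submodule.mem_sup_left (map_mem_smul _ L (ρ σ) (hLst σ hσ) hy₁))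
      (Submodule.mem_sup_right (map_mem_smul _ ⊤ (ρ σ) (fun _ _ => Submodule.mem_top) hy₂))
  have hZtriv : ∀ σ ∈ I, ∀ z ∈ Z, ρ σ z - z ∈ Y := by
    intro σ hσ z hz
    induction hz using Submodule.smul_induction_on' with
    | smul t ht w _ =>
      have e : ρ σ (t • w) - t • w = t • (ρ σ w - w) := by rw [map_smul, smul_sub]
      rw [e]
      exact Submodule.mem_sup_left
        (Submodule.smul_mem_smul (h𝔟 ht) (sub_mem_augSub ρ I hσ w))
    | add x _ y _ hx hy =>
      have e : ρ σ (x + y) - (x + y) = (ρ σ x - x) + (ρ σ y - y) := by rw [map_add]; abel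
      rw [e]
      exact Submodule.add_mem _ hx hy
  have key : Y ⊔ Z ≤ Y := by
    apply hNTS Y (Y ⊔ Z) le_sup_right le_sup_left
    · refine sup_le (sup_le ?_ le_sup_right) (hZL.trans le_sup_left)
      exact (Submodule.smul_le_right).trans le_sup_left
    · exact hYst
    · intro σ hσ y hy
      obtain ⟨y₁, hy₁, y₂, hy₂, rfl⟩ := Submodule.mem_sup.mp hy
      have e : ρ σ (y₁ + y₂) - (y₁ + y₂) = (ρ σ y₁ - y₁) + (ρ σ y₂ - y₂) := by
        rw [map_add]; abel
      rw [e]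
      exact Submodule.add_mem _ (Submodule.sub_mem _ (hYst σ hσ y₁ hy₁) hy₁)
        (hZtriv σ hσ y₂ hy₂)
  -- apply `φ`
  have h1 : 𝔟 ≤ 𝔞 ⊔ maximalIdeal T • 𝔟 := by
    intro t ht
    have htZ : t • b₁ ∈ Z :=
      Submodule.smul_mem_smul ht (Submodule.mem_span_singleton_self b₁)
    have htY : t • b₁ ∈ Y := key (Submodule.mem_sup_right htZ)
    obtain ⟨y₁, hy₁, y₂, hy₂, hsum⟩ := Submodule.mem_sup.mp htY
    have e : t = φ y₂ + φ y₁ := by
      have := congrArg φ hsum
      rw [map_add, map_smul, hφ1, smul_eq_mul, mul_one] at this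
      rw [← this, add_comm]
    rw [e]
    refine Submodule.add_mem_sup (apply_mem_of_mem_smul_top 𝔞 φ hy₂) ?_
    have : Submodule.map φ (maximalIdeal T • L) = maximalIdeal T • Submodule.map φ L :=
      Submodule.map_smul'' _ _ _
    have h2 : φ y₁ ∈ Submodule.map φ (maximalIdeal T • L) := Submodule.mem_map_of_mem hy₁
    rw [this] at h2
    exact h2
  have hfg : (𝔟 : Submodule T T).FG := IsNoetherian.noetherian 𝔟
  have hjac : maximalIdeal T ≤ (⊥ : Ideal T).jacobson := by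
    rw [IsLocalRing.jacobson_eq_maximalIdeal ⊥ bot_ne_top]
  exact Submodule.le_of_le_smul_of_le_jacobson_bot hfg hjac h1

/-- **The algebraic core of ordinarity.** -/
theorem ordinary_of_noTrivSubquot (ρ : G →* Module.End T V) (D I : Subgroup G)
    (hconj : ∀ τ ∈ D, ∀ σ ∈ I, τ * σ * τ⁻¹ ∈ I)
    (b : Basis (Fin 2) T V)
    (hres : ∀ σ ∈ I, ∀ v : V,
      ρ σ v - v ∈ Submodule.span T {b 0} ⊔ maximalIdeal T • (⊤ : Submodule T V))
    (hram : ∃ σ ∈ I, ∃ v : V, ρ σ v - v ∉ maximalIdeal T • (⊤ : Submodule T V))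
    (hNTS : ∀ n : ℕ, ∃ 𝔞 : Ideal T, 𝔞 ≤ maximalIdeal T ^ n ∧ NoTrivSubquotMod ρ I 𝔞) :
    ∃ L : Submodule T V,
      (∃ e : Basis (Fin 2) T V, L = Submodule.span T {e 0}) ∧
      (∀ τ ∈ D, ∀ v ∈ L, ρ τ v ∈ L) ∧
      (∀ σ ∈ I, ∀ v : V, ρ σ v - v ∈ L) := by
  set L := augSub ρ I with hL
  have hLres : L ≤ Submodule.span T {b 0} ⊔ maximalIdeal T • (⊤ : Submodule T V) := by
    refine Submodule.span_le.mpr ?_
    rintro x ⟨σ, hσ, v, rfl⟩
    exact hres σ hσ v
  -- the second coordinate of an element of `L` lies in `𝔪`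
  have hc1 : ∀ x ∈ L, b.repr x 1 ∈ maximalIdeal T := by
    intro x hx
    obtain ⟨y, hy, z, hz, rfl⟩ := Submodule.mem_sup.mp (hLres hx)
    obtain ⟨s, rfl⟩ := Submodule.mem_span_singleton.mp hy
    have e : b.repr (s • b 0 + z) 1 = b.coord 1 z := by
      rw [map_add, map_smul, b.repr_self, Finsupp.add_apply, Finsupp.smul_apply,
        Finsupp.single_apply, if_neg (by decide), smul_zero, zero_add]
      rfl
    rw [e]
    exact apply_mem_of_mem_smul_top _ _ hz
  obtain ⟨σ₀, hσ₀, v₀, hv₀⟩ := hram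
  set e₀ := ρ σ₀ v₀ - v₀ with he₀
  have he₀L : e₀ ∈ L := sub_mem_augSub ρ I hσ₀ v₀
  set α := b.repr e₀ 0 with hα
  set β := b.repr e₀ 1 with hβ
  have hβm : β ∈ maximalIdeal T := hc1 e₀ he₀L
  have hαu : IsUnit α := by
    by_contra h
    exact hv₀ (mem_smul_top_of_repr _ b ((IsLocalRing.mem_maximalIdeal _).mpr h) hβm)
  obtain ⟨u, hu⟩ := hαu
  have he₀eq : e₀ = α • b 0 + β • b 1 := by
    conv_lhs => rw [← b.sum_repr e₀]
    rw [Fin.sum_univ_two]
  -- the functional
  let φ : V →ₗ[T] T := b.coord 1 - (β * ↑u⁻¹) • b.coord 0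
  have hφ : ∀ x, φ x = b.repr x 1 - β * ↑u⁻¹ * b.repr x 0 := fun x => rfl
  have hφ1 : φ (b 1) = 1 := by
    rw [hφ, b.repr_self, Finsupp.single_apply, Finsupp.single_apply, if_pos rfl,
      if_neg (by decide), mul_zero, sub_zero]
  have hφker : ∀ x, φ x = 0 → x ∈ Submodule.span T {e₀} := by
    intro x hx
    rw [hφ, sub_eq_zero] at hx
    refine Submodule.mem_span_singleton.mpr ⟨↑u⁻¹ * b.repr x 0, ?_⟩
    have e : x = b.repr x 0 • b 0 + b.repr x 1 • b 1 := by
      conv_lhs => rw [← b.sum_repr x]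
      rw [Fin.sum_univ_two]
    rw [he₀eq, smul_add, smul_smul, smul_smul]
    conv_rhs => rw [e]
    congr 2
    · rw [← hu, mul_right_comm, Units.inv_mul, one_mul]
    · rw [hx]; ring
  have he₀span : Submodule.span T {e₀} ≤ L :=
    Submodule.span_le.mpr (Set.singleton_subset_iff.mpr he₀L)
  have hφe₀ : φ e₀ = 0 := by
    rw [hφ, ← hα, ← hβ, ← hu, mul_assoc, Units.inv_mul, mul_one, sub_self]
  have h𝔟 : L.map φ ≤ maximalIdeal T := by
    rintro t ⟨x, hx, rfl⟩
    rw [hφ]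
    exact Ideal.sub_mem _ (hc1 x hx) (Ideal.mul_mem_right _ _ (Ideal.mul_mem_right _ _ hβm))
  have hb₁ : ∀ t ∈ L.map φ, t • b 1 ∈ L := by
    rintro t ⟨x, hx, rfl⟩
    have h1 : φ (x - φ x • b 1) = 0 := by
      rw [map_sub, map_smul, hφ1, smul_eq_mul, mul_one, sub_self]
    have h2 : x - φ x • b 1 ∈ L := he₀span (hφker _ h1)
    have e : φ x • b 1 = x - (x - φ x • b 1) := by abel
    rw [e]
    exact Submodule.sub_mem _ hx h2
  -- the defect ideal vanishes
  have hzero : L.map φ = ⊥ := by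
    rw [eq_bot_iff, ← Ideal.iInf_pow_eq_bot_of_isLocalRing (maximalIdeal T)
      (Ideal.IsPrime.ne_top inferInstance)]
    refine le_iInf fun n => ?_
    obtain ⟨𝔞, h𝔞, hN⟩ := hNTS n
    exact (defect_le ρ I (b 1) φ hφ1 h𝔟 hb₁ 𝔞 hN).trans h𝔞
  have hLeq : L = Submodule.span T {e₀} := by
    refine le_antisymm (fun x hx => hφker x ?_) he₀span
    have : φ x ∈ L.map φ := Submodule.mem_map_of_mem hx
    rw [hzero] at this
    exact (Submodule.mem_bot T).mp this
  -- the new basis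
  have hspan : (⊤ : Submodule T V) ≤ Submodule.span T (Set.range ![e₀, b 1]) := by
    rw [← b.span_eq]
    refine Submodule.span_le.mpr ?_
    rintro _ ⟨i, rfl⟩
    have h0 : e₀ ∈ Submodule.span T (Set.range ![e₀, b 1]) :=
      Submodule.subset_span ⟨0, rfl⟩
    have h1 : b 1 ∈ Submodule.span T (Set.range ![e₀, b 1]) :=
      Submodule.subset_span ⟨1, rfl⟩
    fin_cases i
    · have e : b 0 = (↑u⁻¹ : T) • (e₀ - β • b 1) := by
        rw [he₀eq, add_sub_cancel_right, smul_smul, ← hu, Units.inv_mul, one_smul]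
      show b 0 ∈ _
      rw [e]
      exact Submodule.smul_mem _ _ (Submodule.sub_mem _ h0 (Submodule.smul_mem _ _ h1))
    · exact h1
  have hcard : Fintype.card (Fin 2) = finrank T V := by
    rw [Module.finrank_eq_card_basis b]
  let e : Basis (Fin 2) T V := basisOfTopLeSpanOfCardEqFinrank ![e₀, b 1] hspan hcard
  have he0 : e 0 = e₀ := by
    show basisOfTopLeSpanOfCardEqFinrank ![e₀, b 1] hspan hcard 0 = e₀
    rw [coe_basisOfTopLeSpanOfCardEqFinrank]
    rfl
  refine ⟨L, ⟨e, by rw [he0]; exact hLeq⟩, ?_, ?_⟩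
  · intro τ hτ v hv
    exact map_mem_augSub ρ I τ (hconj τ hτ) hv
  · intro σ hσ v
    exact sub_mem_augSub ρ I hσ v

end main

end Fermat.Agent.H40.ORD
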