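import Mathlib

/-!
# P-ORD, block B1-LATT (helper40): the pair lattice property (M5), abstractly

`K` a field, `A` a valuation subring with residue field `k`, `F` a field over `K`,
`V_∞`, `V_0` two subrings of `F` with reductions `red_∞ : V_∞ → F_∞`, `red_0 : V_0 → F_0`
(fields over `k`), containing `A` and reducing the constants in the natural way.

The pair lattice property (M5) (= the field `lattice` of `Fermat.Agent.H18.ORD.NodalRvHyp`)
follows from the ONE-valuation lattice property at `V_∞` and at `V_0` (each is the case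
`V = ⟨1, f⟩` of (G3)), by a closed case analysis (no iteration):

with `u = α₁ f + β₁` (reduction at `∞` non-constant), `u' = α₂ f + β₂` (reduction at `0`
non-constant), `μ = α₁ / α₂`, `λ = μ β₂ - β₁` (so `u + λ = μ u'`) :

* `λ ∈ A`, `μ ∈ A`        : `g = u + λ = μ u'`;
* `λ ∈ A`, `μ ∉ A`        : `g = u' = μ⁻¹ u + λ μ⁻¹`;
* `λ ∉ A`, `μ / λ ∈ A`    : `g = λ⁻¹ u = (μ / λ) u' - 1`   (reduction pair `(0, ≠ 0)`);
* `λ ∉ A`, `μ / λ ∉ A`    : `g = μ⁻¹ u = u' - λ / μ`       (reduction pair `(0, non-constant)`).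
-/

set_option autoImplicit false

noncomputable section

namespace Fermat.Agent.H40.ORD

variable {K : Type*} [Field K] {A : ValuationSubring K} {F : Type*} [Field F] [Algebra K F]
  {Foo F0 : Type*} [Field Foo] [Field F0]
  [Algebra (IsLocalRing.ResidueField A) Foo] [Algebra (IsLocalRing.ResidueField A) F0]

/-- The one-valuation lattice property in dimension two: a non-constant `f` has a
normalisation `α f + β` in `V` with non-constant reduction. -/
def OneLattice (A : ValuationSubring K) {F : Type*} [Field F] [Algebra K F] {F' : Type*}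
    [Field F'] [Algebra (IsLocalRing.ResidueField A) F'] (V : Subring F) (red : V →+* F') :
    Prop :=
  ∀ f : F, (∀ c : K, f ≠ algebraMap K F c) →
    ∃ (α β : K) (h : algebraMap K F α * f + algebraMap K F β ∈ V), α ≠ 0 ∧
      ∀ κ : IsLocalRing.ResidueField A,
        red ⟨_, h⟩ ≠ algebraMap (IsLocalRing.ResidueField A) F' κ

/-- The pair lattice property (M5). -/
def PairLattice (A : ValuationSubring K) {F : Type*} [Field F] [Algebra K F]
    {Foo F0 : Type*} [Field Foo] [Field F0] [Algebra (IsLocalRing.ResidueField A) Foo]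
    [Algebra (IsLocalRing.ResidueField A) F0] (Voo V0 : Subring F) (redOo : Voo →+* Foo)
    (red0 : V0 →+* F0) : Prop :=
  ∀ f : F, (∀ c : K, f ≠ algebraMap K F c) →
    ∃ (α β : K) (h : algebraMap K F α * f + algebraMap K F β ∈ Voo)
      (h0 : algebraMap K F α * f + algebraMap K F β ∈ V0), α ≠ 0 ∧
      ¬ ∃ κ : IsLocalRing.ResidueField A,
        redOo ⟨_, h⟩ = algebraMap (IsLocalRing.ResidueField A) Foo κ ∧
        red0 ⟨_, h0⟩ = algebraMap (IsLocalRing.ResidueField A) F0 κ

/-- an affine identity in `F` -/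
theorem pl_affine_eq (f : F) (α β α' β' a b : K) (hα : α = b * α')
    (hβ : β = a + b * β') :
    algebraMap K F α * f + algebraMap K F β =
      algebraMap K F a + algebraMap K F b * (algebraMap K F α' * f + algebraMap K F β') := by
  subst hα hβ
  simp only [map_add, map_mul]
  ring

/-- Reduction of `a + b u` (`a, b ∈ A`, `u` in the ring `V`). -/
theorem pl_red_affine {F' : Type*} [Field F'] [Algebra (IsLocalRing.ResidueField A) F']
    (V : Subring F) (red : V →+* F')
    (hconst : ∀ c : K, c ∈ A → algebraMap K F c ∈ V)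
    (hred : ∀ (c : A) (h : algebraMap K F (c : K) ∈ V),
      red ⟨_, h⟩ = algebraMap (IsLocalRing.ResidueField A) F' (IsLocalRing.residue A c))
    (a b : A) (u : V) (g : F)
    (hg : g = algebraMap K F (a : K) + algebraMap K F (b : K) * (u : F)) :
    ∃ h : g ∈ V, red ⟨g, h⟩ =
      algebraMap (IsLocalRing.ResidueField A) F' (IsLocalRing.residue A a) +
      algebraMap (IsLocalRing.ResidueField A) F' (IsLocalRing.residue A b) * red u := by
  have ha := hconst a a.2
  have hb := hconst b b.2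
  have hmem : g ∈ V := by
    rw [hg]
    exact V.add_mem ha (V.mul_mem hb u.2)
  refine ⟨hmem, ?_⟩
  have e : (⟨g, hmem⟩ : V) = ⟨_, ha⟩ + ⟨_, hb⟩ * u := by
    apply Subtype.ext
    simpa using hg
  rw [e, map_add, map_mul, hred a ha, hred b hb]

theorem pl_residue_ne_zero {a : A} (ha : IsUnit a) : IsLocalRing.residue A a ≠ 0 := by
  intro h
  rw [IsLocalRing.residue_eq_zero_iff] at h
  exact (IsLocalRing.mem_maximalIdeal a).mp h ha

theorem pl_residue_eq_zero {a : A} (ha : ¬ IsUnit a) : IsLocalRing.residue A a = 0 := by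
  rw [IsLocalRing.residue_eq_zero_iff]
  exact (IsLocalRing.mem_maximalIdeal a).mpr ha

/-- The uniform step: `g = a + b u = a' + b' u'` with `b` or `b'` or `a - a'` a unit of `A` has
a reduction pair which is not a constant pair. -/
theorem pl_not_const_pair (Voo V0 : Subring F) (redOo : Voo →+* Foo) (red0 : V0 →+* F0)
    (const_oo : ∀ c : K, c ∈ A → algebraMap K F c ∈ Voo)
    (const_zero : ∀ c : K, c ∈ A → algebraMap K F c ∈ V0)
    (red_const_oo : ∀ (c : A) (h : algebraMap K F (c : K) ∈ Voo),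
      redOo ⟨_, h⟩ = algebraMap (IsLocalRing.ResidueField A) Foo (IsLocalRing.residue A c))
    (red_const_zero : ∀ (c : A) (h : algebraMap K F (c : K) ∈ V0),
      red0 ⟨_, h⟩ = algebraMap (IsLocalRing.ResidueField A) F0 (IsLocalRing.residue A c))
    (u : Voo) (u' : V0)
    (hu : ∀ κ : IsLocalRing.ResidueField A,
      redOo u ≠ algebraMap (IsLocalRing.ResidueField A) Foo κ)
    (hu' : ∀ κ : IsLocalRing.ResidueField A,
      red0 u' ≠ algebraMap (IsLocalRing.ResidueField A) F0 κ)
    (a b a' b' : A) (g : F)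
    (hg : g = algebraMap K F (a : K) + algebraMap K F (b : K) * (u : F))
    (hg' : g = algebraMap K F (a' : K) + algebraMap K F (b' : K) * (u' : F))
    (hcase : IsUnit b ∨ IsUnit b' ∨ IsUnit (a - a')) :
    ∃ (h : g ∈ Voo) (h0 : g ∈ V0),
      ¬ ∃ κ : IsLocalRing.ResidueField A,
        redOo ⟨g, h⟩ = algebraMap (IsLocalRing.ResidueField A) Foo κ ∧
        red0 ⟨g, h0⟩ = algebraMap (IsLocalRing.ResidueField A) F0 κ := by
  obtain ⟨h, hr⟩ := pl_red_affine Voo redOo const_oo red_const_oo a b u g hg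
  obtain ⟨h0, hr0⟩ := pl_red_affine V0 red0 const_zero red_const_zero a' b' u' g hg'
  refine ⟨h, h0, ?_⟩
  rintro ⟨κ, h1, h2⟩
  rw [hr] at h1
  rw [hr0] at h2
  by_cases hb : IsUnit b
  · have hne := pl_residue_ne_zero hb
    refine hu ((κ - IsLocalRing.residue A a) / IsLocalRing.residue A b) ?_
    have hne' : algebraMap (IsLocalRing.ResidueField A) Foo (IsLocalRing.residue A b) ≠ 0 := by
      simpa using hne
    rw [map_div₀, map_sub, eq_div_iff hne', ← h1]
    ring
  by_cases hb' : IsUnit b'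
  · have hne := pl_residue_ne_zero hb'
    refine hu' ((κ - IsLocalRing.residue A a') / IsLocalRing.residue A b') ?_
    have hne' : algebraMap (IsLocalRing.ResidueField A) F0 (IsLocalRing.residue A b') ≠ 0 := by
      simpa using hne
    rw [map_div₀, map_sub, eq_div_iff hne', ← h2]
    ring
  have hab : IsUnit (a - a') := by
    rcases hcase with h | h | h
    · exact absurd h hb
    · exact absurd h hb'
    · exact h
  rw [pl_residue_eq_zero hb, map_zero, zero_mul, add_zero] at h1
  rw [pl_residue_eq_zero hb', map_zero, zero_mul, add_zero] at h2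
  have e1 : IsLocalRing.residue A a = κ :=
    (algebraMap (IsLocalRing.ResidueField A) Foo).injective h1
  have e2 : IsLocalRing.residue A a' = κ :=
    (algebraMap (IsLocalRing.ResidueField A) F0).injective h2
  refine pl_residue_ne_zero hab ?_
  rw [map_sub, e1, e2, sub_self]

/-- **B1-LATT, abstract form.**  The pair lattice property (M5) follows from the one-valuation
lattice properties at `V_∞` and at `V_0` (and the reduction of constants). -/
theorem pairLattice_of_one (Voo V0 : Subring F) (redOo : Voo →+* Foo) (red0 : V0 →+* F0)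
    (const_oo : ∀ c : K, c ∈ A → algebraMap K F c ∈ Voo)
    (const_zero : ∀ c : K, c ∈ A → algebraMap K F c ∈ V0)
    (red_const_oo : ∀ (c : A) (h : algebraMap K F (c : K) ∈ Voo),
      redOo ⟨_, h⟩ = algebraMap (IsLocalRing.ResidueField A) Foo (IsLocalRing.residue A c))
    (red_const_zero : ∀ (c : A) (h : algebraMap K F (c : K) ∈ V0),
      red0 ⟨_, h⟩ = algebraMap (IsLocalRing.ResidueField A) F0 (IsLocalRing.residue A c))
    (hoo : OneLattice A Voo redOo) (hzero : OneLattice A V0 red0) :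
    PairLattice A Voo V0 redOo red0 := by
  intro f hf
  obtain ⟨α₁, β₁, hu, hα₁, hru⟩ := hoo f hf
  obtain ⟨α₂, β₂, hu', hα₂, hru'⟩ := hzero f hf
  set u : Voo := ⟨_, hu⟩ with hudef
  set u' : V0 := ⟨_, hu'⟩ with hu'def
  -- the comparison constants
  set μ : K := α₁ / α₂ with hμ
  set lam : K := μ * β₂ - β₁ with hlam
  have hμ0 : μ ≠ 0 := div_ne_zero hα₁ hα₂
  have key : ∀ (α β : K) (a b a' b' : A), α ≠ 0 → α = (b : K) * α₁ →
      β = (a : K) + (b : K) * β₁ → α = (b' : K) * α₂ → β = (a' : K) + (b' : K) * β₂ →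
      (IsUnit b ∨ IsUnit b' ∨ IsUnit (a - a')) →
      ∃ (α β : K) (h : algebraMap K F α * f + algebraMap K F β ∈ Voo)
        (h0 : algebraMap K F α * f + algebraMap K F β ∈ V0), α ≠ 0 ∧
        ¬ ∃ κ : IsLocalRing.ResidueField A,
          redOo ⟨_, h⟩ = algebraMap (IsLocalRing.ResidueField A) Foo κ ∧
          red0 ⟨_, h0⟩ = algebraMap (IsLocalRing.ResidueField A) F0 κ := by
    intro α β a b a' b' hα h1 h2 h3 h4 hcase
    have hg := pl_affine_eq (F := F) f α β α₁ β₁ a b h1 h2
    have hg' := pl_affine_eq (F := F) f α β α₂ β₂ a' b' h3 h4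
    obtain ⟨h, h0, hn⟩ := pl_not_const_pair Voo V0 redOo red0 const_oo const_zero red_const_oo
      red_const_zero u u' hru hru' a b a' b' _ hg hg' hcase
    exact ⟨α, β, h, h0, hα, hn⟩
  by_cases hlA : lam ∈ A
  · by_cases hμA : μ ∈ A
    · -- `g = u + λ = μ u'`
      refine key α₁ (β₁ + lam) ⟨lam, hlA⟩ 1 0 ⟨μ, hμA⟩ hα₁ ?_ ?_ ?_ ?_ (Or.inl isUnit_one)
      · simp
      · simp [add_comm]
      · show α₁ = μ * α₂
        rw [hμ]; field_simp
      · show β₁ + lam = ((0 : A) : K) + μ * β₂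
        rw [hlam]; simp
    · -- `g = u' = γ u + δ`
      have hγA : μ⁻¹ ∈ A := (A.mem_or_inv_mem μ).resolve_left hμA
      have hδA : lam * μ⁻¹ ∈ A := mul_mem hlA hγA
      refine key α₂ β₂ ⟨lam * μ⁻¹, hδA⟩ ⟨μ⁻¹, hγA⟩ 0 1 hα₂ ?_ ?_ ?_ ?_
        (Or.inr (Or.inl isUnit_one))
      · show α₂ = μ⁻¹ * α₁
        rw [hμ]; field_simp
      · show β₂ = lam * μ⁻¹ + μ⁻¹ * β₁
        rw [hlam]; field_simp; ring
      · simp
      · simp
  · have hl0 : lam ≠ 0 := fun h => hlA (h ▸ A.zero_mem)
    have hliA : lam⁻¹ ∈ A := (A.mem_or_inv_mem lam).resolve_left hlA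
    by_cases hμl : μ / lam ∈ A
    · -- `g = λ⁻¹ u = (μ / λ) u' - 1`
      refine key (lam⁻¹ * α₁) (lam⁻¹ * β₁) 0 ⟨lam⁻¹, hliA⟩ (-1) ⟨μ / lam, hμl⟩
        (mul_ne_zero (inv_ne_zero hl0) hα₁) ?_ ?_ ?_ ?_ (Or.inr (Or.inr ?_))
      · rfl
      · simp
      · show lam⁻¹ * α₁ = μ / lam * α₂
        rw [hμ]; field_simp
      · show lam⁻¹ * β₁ = ((-1 : A) : K) + μ / lam * β₂
        have : β₁ = μ * β₂ - lam := by rw [hlam]; ring
        push_cast
        rw [this]; field_simp; ring
      · simp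
    · -- `g = μ⁻¹ u = u' - λ / μ`
      have hμA : μ ∉ A := fun h => hμl (by rw [div_eq_mul_inv]; exact mul_mem h hliA)
      have hγA : μ⁻¹ ∈ A := (A.mem_or_inv_mem μ).resolve_left hμA
      have hδA : lam / μ ∈ A := by
        have := (A.mem_or_inv_mem (μ / lam)).resolve_left hμl
        rwa [inv_div] at this
      refine key (μ⁻¹ * α₁) (μ⁻¹ * β₁) 0 ⟨μ⁻¹, hγA⟩ (-⟨lam / μ, hδA⟩) 1
        (mul_ne_zero (inv_ne_zero hμ0) hα₁) ?_ ?_ ?_ ?_ (Or.inr (Or.inl isUnit_one))
      · rfl
      · simp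
      · show μ⁻¹ * α₁ = ((1 : A) : K) * α₂
        rw [hμ]; push_cast; field_simp
      · show μ⁻¹ * β₁ = ((-⟨lam / μ, hδA⟩ : A) : K) + ((1 : A) : K) * β₂
        have : β₁ = μ * β₂ - lam := by rw [hlam]; ring
        push_cast
        rw [this]; field_simp; ring

/-- The one-valuation lattice property from a pair of elements of `⟨1, f⟩ ∩ V` with linearly
independent reductions (= (G3) for the plane `⟨1, f⟩`). -/
theorem oneLattice_of_pair {F' : Type*} [Field F'] [Algebra (IsLocalRing.ResidueField A) F']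
    (V : Subring F) (red : V →+* F')
    (const_iff : ∀ c : K, algebraMap K F c ∈ V ↔ c ∈ A)
    (red_const : ∀ (c : A) (h : algebraMap K F (c : K) ∈ V),
      red ⟨_, h⟩ = algebraMap (IsLocalRing.ResidueField A) F' (IsLocalRing.residue A c))
    (hpair : ∀ f : F, (∀ c : K, f ≠ algebraMap K F c) →
      ∃ (a₁ b₁ a₂ b₂ : K) (h₁ : algebraMap K F b₁ * f + algebraMap K F a₁ ∈ V)
        (h₂ : algebraMap K F b₂ * f + algebraMap K F a₂ ∈ V),
        ∀ s t : IsLocalRing.ResidueField A,
          algebraMap (IsLocalRing.ResidueField A) F' s * red ⟨_, h₁⟩ +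
            algebraMap (IsLocalRing.ResidueField A) F' t * red ⟨_, h₂⟩ = 0 → s = 0 ∧ t = 0) :
    OneLattice A V red := by
  intro f hf
  obtain ⟨a₁, b₁, a₂, b₂, h₁, h₂, hli⟩ := hpair f hf
  -- a constant element of `V` has constant reduction
  have hconst : ∀ (a b : K) (h : algebraMap K F b * f + algebraMap K F a ∈ V),
      (∀ κ : IsLocalRing.ResidueField A,
        red ⟨_, h⟩ ≠ algebraMap (IsLocalRing.ResidueField A) F' κ) → b ≠ 0 := by
    intro a b h hne hb
    subst hb
    have h' : algebraMap K F a ∈ V := by simpa using h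
    have haA : a ∈ A := (const_iff a).mp h'
    refine hne (IsLocalRing.residue A ⟨a, haA⟩) ?_
    rw [← red_const ⟨a, haA⟩ h']
    congr 1
    apply Subtype.ext
    simp
  by_cases hc₁ : ∀ κ : IsLocalRing.ResidueField A,
      red ⟨_, h₁⟩ ≠ algebraMap (IsLocalRing.ResidueField A) F' κ
  · exact ⟨b₁, a₁, h₁, hconst a₁ b₁ h₁ hc₁, hc₁⟩
  by_cases hc₂ : ∀ κ : IsLocalRing.ResidueField A,
      red ⟨_, h₂⟩ ≠ algebraMap (IsLocalRing.ResidueField A) F' κ
  · exact ⟨b₂, a₂, h₂, hconst a₂ b₂ h₂ hc₂, hc₂⟩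
  exfalso
  obtain ⟨κ₁, e₁'⟩ := not_forall.mp hc₁
  obtain ⟨κ₂, e₂'⟩ := not_forall.mp hc₂
  have e₁ := not_not.mp e₁'
  have e₂ := not_not.mp e₂'
  have h0 := hli κ₂ (-κ₁) (by rw [e₁, e₂, map_neg]; ring)
  have hκ₁ : κ₁ = 0 := by simpa using h0.2
  have h1 := hli 1 0 (by rw [e₁, hκ₁]; simp)
  exact one_ne_zero h1.1

/-- The plane `⟨1, f⟩` of a non-constant `f` has dimension two. -/
theorem pl_plane (f : F) (hf : ∀ c : K, f ≠ algebraMap K F c) :
    Module.finrank K ↥(Submodule.span K (Set.range ![(1 : F), f])) = 2 := by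
  have hli : LinearIndependent K ![(1 : F), f] := by
    rw [LinearIndependent.pair_iff]
    intro s t hst
    rw [Algebra.smul_def, Algebra.smul_def, mul_one] at hst
    by_cases ht : t = 0
    · subst ht
      rw [map_zero, zero_mul, add_zero] at hst
      exact ⟨(map_eq_zero (algebraMap K F)).mp hst, rfl⟩
    · exfalso
      refine hf (-(s / t)) ?_
      have ht' : algebraMap K F t ≠ 0 := (map_ne_zero (algebraMap K F)).mpr ht
      have h1 : algebraMap K F t * f = -algebraMap K F s := eq_neg_of_add_eq_zero_right hst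
      rw [map_neg, map_div₀, ← neg_div, ← h1, mul_div_cancel_left₀ f ht']
  rw [finrank_span_eq_card hli]
  rfl

/-- The one-valuation lattice property from (G3) (lattice reduction for all finite-dimensional
subspaces; linear independence of the reductions in explicit form), applied to the plane
`⟨1, f⟩`. -/
theorem oneLattice_of_G3 {F' : Type*} [Field F'] [Algebra (IsLocalRing.ResidueField A) F']
    (V : Subring F) (red : V →+* F')
    (const_iff : ∀ c : K, algebraMap K F c ∈ V ↔ c ∈ A)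
    (red_const : ∀ (c : A) (h : algebraMap K F (c : K) ∈ V),
      red ⟨_, h⟩ = algebraMap (IsLocalRing.ResidueField A) F' (IsLocalRing.residue A c))
    (hG3 : ∀ W : Submodule K F, FiniteDimensional K ↥W →
      ∃ u : Fin (Module.finrank K ↥W) → V, (∀ i, ((u i : V) : F) ∈ W) ∧
        ∀ g : Fin (Module.finrank K ↥W) → IsLocalRing.ResidueField A,
          ∑ i, algebraMap (IsLocalRing.ResidueField A) F' (g i) * red (u i) = 0 →
            ∀ i, g i = 0) :
    OneLattice A V red := by
  classical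
  refine oneLattice_of_pair V red const_iff red_const ?_
  intro f hf
  have h2 := pl_plane (K := K) f hf
  have hfin : FiniteDimensional K ↥(Submodule.span K (Set.range ![(1 : F), f])) :=
    FiniteDimensional.span_of_finite K (Set.finite_range _)
  obtain ⟨u, huV, huli⟩ := hG3 _ hfin
  have hmem : ∀ i, ∃ a b : K, ((u i : V) : F) = algebraMap K F b * f + algebraMap K F a := by
    intro i
    have := huV i
    rw [Matrix.range_cons_cons_empty, Submodule.mem_span_pair] at this
    obtain ⟨a, b, hab⟩ := this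
    refine ⟨a, b, ?_⟩
    rw [← hab, Algebra.smul_def, Algebra.smul_def, mul_one, add_comm]
  have hi₀ : 0 < Module.finrank K ↥(Submodule.span K (Set.range ![(1 : F), f])) := by
    rw [h2]; norm_num
  have hi₁ : 1 < Module.finrank K ↥(Submodule.span K (Set.range ![(1 : F), f])) := by
    rw [h2]; norm_num
  clear h2
  generalize hn : Module.finrank K ↥(Submodule.span K (Set.range ![(1 : F), f])) = n at *
  obtain ⟨a₁, b₁, e₁⟩ := hmem ⟨0, hi₀⟩
  obtain ⟨a₂, b₂, e₂⟩ := hmem ⟨1, hi₁⟩
  have h₁ : algebraMap K F b₁ * f + algebraMap K F a₁ ∈ V := by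
    rw [← e₁]; exact (u ⟨0, hi₀⟩).2
  have h₂ : algebraMap K F b₂ * f + algebraMap K F a₂ ∈ V := by
    rw [← e₂]; exact (u ⟨1, hi₁⟩).2
  have eu₁ : (⟨_, h₁⟩ : V) = u ⟨0, hi₀⟩ := Subtype.ext e₁.symm
  have eu₂ : (⟨_, h₂⟩ : V) = u ⟨1, hi₁⟩ := Subtype.ext e₂.symm
  refine ⟨a₁, b₁, a₂, b₂, h₁, h₂, ?_⟩
  intro s t hst
  rw [eu₁, eu₂] at hst
  have hne : (⟨0, hi₀⟩ : Fin n) ≠ ⟨1, hi₁⟩ := by
    intro h
    have := congrArg Fin.val h
    simp at this
  set g : Fin n → IsLocalRing.ResidueField A :=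
    fun i => if i = ⟨0, hi₀⟩ then s else if i = ⟨1, hi₁⟩ then t else 0 with hg
  have hg0 : g ⟨0, hi₀⟩ = s := by simp [hg]
  have hg1 : g ⟨1, hi₁⟩ = t := by
    show (if (⟨1, hi₁⟩ : Fin n) = ⟨0, hi₀⟩ then s
      else if (⟨1, hi₁⟩ : Fin n) = ⟨1, hi₁⟩ then t else 0) = t
    rw [if_neg hne.symm, if_pos rfl]
  have hsum : ∑ i, algebraMap (IsLocalRing.ResidueField A) F' (g i) * red (u i) = 0 := by
    rw [Finset.sum_eq_add (⟨0, hi₀⟩ : Fin n) ⟨1, hi₁⟩ hne, hg0, hg1, hst]
    · intro c _ hc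
      have : g c = 0 := by
        show (if c = ⟨0, hi₀⟩ then s else if c = ⟨1, hi₁⟩ then t else 0) = 0
        rw [if_neg hc.1, if_neg hc.2]
      rw [this, map_zero, zero_mul]
    · intro h; exact absurd (Finset.mem_univ _) h
    · intro h; exact absurd (Finset.mem_univ _) h
  have hz := huli g hsum
  exact ⟨hg0 ▸ hz ⟨0, hi₀⟩, hg1 ▸ hz ⟨1, hi₁⟩⟩

end Fermat.Agent.H40.ORD
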