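import Fermat.Agent.H16.ORD.SepRR
import Fermat.Prelude.Def_AlgebraicCurve_DivisorClassGroup

/-!
# P-ORD, block B1, row 1158 [DVR], step (D1) (helper40, second seat)

`valDiscB` : a proper valuation subring `V` of a function field `F / K` (`K` algebraically closed,
Riemann's hypotheses `Fermat.Agent.H58.RRHyp K F`) which contains the constants is the valuation
ring of a place of `F / K`; in particular it is a principal ideal ring.

Proof: `F` is finite separable over `K(x)` for a separating element `x` (helper16
`exists_sep_of_rrHyp`); replace `x` by `1 / x` if `x ∉ V`.  Then `V` contains the integral closure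
`T` of `K[x]` in `F`, a Dedekind domain with fraction field `F`; `𝔓 = 𝔪_V ∩ T` is a nonzero prime
of `T` (otherwise `V = F`), `T_𝔓 ⊆ V` is a discrete valuation ring, hence `T_𝔓 = V`.
-/

set_option autoImplicit false
set_option linter.unusedSectionVars false
set_option linter.style.haveILetI false
set_option linter.unusedVariables false

noncomputable section

open Polynomial AlgebraicCurve IntermediateField IsDedekindDomain
open scoped IntermediateField.algebraAdjoinAdjoin

namespace Fermat.Agent.H40.ORD

variable {K F : Type} [Field K] [Field F] [Algebra K F]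

/-- units of a valuation subring: a member which is not a nonunit has its inverse inside -/
theorem vdb_inv_mem (B : ValuationSubring F) (f : F) (hf : f ∈ B) (hnf : f ∉ B.nonunits) :
    f⁻¹ ∈ B := by
  have hu : IsUnit (⟨f, hf⟩ : ↥B) := by
    by_contra hu
    apply hnf
    rw [ValuationSubring.mem_nonunits_iff_exists_mem_maximalIdeal]
    exact ⟨hf, (IsLocalRing.mem_maximalIdeal _).2 hu⟩
  obtain ⟨u, hu⟩ := hu
  have h1 : (f : F) * ((↑(u⁻¹ : (↥B)ˣ) : ↥B) : F) = 1 := by
    have h2 := congrArg (fun z : ↥B => (z : F)) u.mul_inv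
    simp only [MulMemClass.coe_mul, OneMemClass.coe_one] at h2
    rw [hu] at h2
    exact h2
  rw [← eq_inv_of_mul_eq_one_right h1]
  exact ((↑(u⁻¹ : (↥B)ˣ) : ↥B)).2

/-- **(D1), separating-element form.**  `F / K(y)` finite separable, `y ∈ B` transcendental,
`K ⊆ B ≠ F` a valuation subring: `B` is the valuation ring of a place. -/
theorem vdb_place_of_sep (y : F) (hy : Transcendental K y)
    (E : IntermediateField K F) (hE : E = K⟮y⟯) [FiniteDimensional E F] [Algebra.IsSeparable E F]
    (B : ValuationSubring F) (hKB : ∀ a : K, algebraMap K F a ∈ B) (hyB : y ∈ B)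
    (hBtop : B ≠ ⊤) :
    ∃ P : Place K F, P.toValuationSubring = B := by
  classical
  subst hE
  have hunitB := vdb_inv_mem B
  -- the Dedekind domain `T`
  let A' := Algebra.adjoin K {y}
  let e : K[X] ≃ₐ[K] A' := Polynomial.algEquivOfTranscendental K y hy
  have hPIR : IsPrincipalIdealRing A' :=
    IsPrincipalIdealRing.of_surjective e.toRingEquiv.toRingHom e.surjective
  have hDA : IsDedekindDomain A' := inferInstance
  let T := integralClosure A' F
  have hDT : IsDedekindDomain T := integralClosure.isDedekindDomain A' K⟮y⟯ F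
  have hFT : IsFractionRing T F := integralClosure.isFractionRing_of_finite_extension K⟮y⟯ F
  have hKTF : IsScalarTower K T F := IsScalarTower.of_algebraMap_eq (fun c => rfl)
  have hA'B : ∀ a : A', (a : F) ∈ B := by
    intro a
    have ha : (a : F) ∈ Algebra.adjoin K {y} := a.2
    rw [Algebra.adjoin_singleton_eq_range_aeval] at ha
    obtain ⟨p, hp⟩ := ha
    rw [← hp]
    show aeval y p ∈ _
    rw [Polynomial.aeval_eq_sum_range]
    refine sum_mem (fun i _ => ?_)
    rw [Algebra.smul_def]
    exact mul_mem (hKB _) (pow_mem hyB _)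
  have hTB : ∀ t : T, algebraMap T F t ∈ B := by
    intro t
    let ψ : A' →+* ↥B := (algebraMap A' F).codRestrict B.toSubring hA'B
    let _ : Algebra A' ↥B := ψ.toAlgebra
    have : IsScalarTower A' ↥B F := IsScalarTower.of_algebraMap_eq (fun a => rfl)
    have ht : IsIntegral A' (algebraMap T F t) := t.2
    have ht' : IsIntegral ↥B (algebraMap T F t) := ht.tower_top
    obtain ⟨a, ha⟩ := IsIntegrallyClosed.isIntegral_iff.mp ht'
    rw [← ha]
    exact a.2
  let φ : T →+* ↥B := (algebraMap T F).codRestrict B.toSubring hTB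
  let 𝔓 : Ideal T := Ideal.comap φ (IsLocalRing.maximalIdeal ↥B)
  have h𝔓mem : ∀ t : T, t ∈ 𝔓 ↔ algebraMap T F t ∈ B.nonunits := by
    intro t
    rw [ValuationSubring.mem_nonunits_iff_exists_mem_maximalIdeal]
    constructor
    · intro h
      exact ⟨hTB t, h⟩
    · rintro ⟨_, h⟩
      exact h
  have h𝔓prime : 𝔓.IsPrime := Ideal.comap_isPrime φ _
  have h𝔓ne : 𝔓 ≠ ⊥ := by
    intro hbot
    apply hBtop
    refine SetLike.ext fun x => ⟨fun _ => ValuationSubring.mem_top x, fun _ => ?_⟩
    obtain ⟨n, d, hd, hnd⟩ := IsFractionRing.div_surjective (A := T) x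
    have hd0T : (d : T) ≠ 0 := nonZeroDivisors.ne_zero hd
    have hdP : d ∉ 𝔓 := by
      rw [hbot, Ideal.mem_bot]
      exact hd0T
    have hdinv : (algebraMap T F d)⁻¹ ∈ B :=
      hunitB _ (hTB d) (fun h => hdP ((h𝔓mem d).2 h))
    rw [← hnd, div_eq_mul_inv]
    exact mul_mem (hTB n) hdinv
  let w : HeightOneSpectrum T := ⟨𝔓, h𝔓prime, h𝔓ne⟩
  have hPB : (Place.ofHeightOneSpectrum (K := K) (F := F) w).toValuationSubring = B := by
    rw [Place.ofHeightOneSpectrum_toValuationSubring,
      ← HeightOneSpectrum.valuationSubringAtPrime_eq_valuationSubring]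
    apply ValuationSubring.eq_of_le_of_ne_top _ _ hBtop
    intro x hx
    rw [HeightOneSpectrum.valuationSubringAtPrime_eq_valuationSubring] at hx
    obtain ⟨n, d, hnd⟩ := w.exists_primeCompl_mul_eq_of_integer x hx
    have hd : (d : T) ∉ 𝔓 := d.2
    have hd0 : algebraMap T F d ≠ 0 := by
      intro h
      apply hd
      rw [(map_eq_zero_iff _ (IsFractionRing.injective T F)).mp h]
      exact 𝔓.zero_mem
    have hdinv : (algebraMap T F d)⁻¹ ∈ B :=
      hunitB _ (hTB d) (fun h => hd ((h𝔓mem d).2 h))
    have hx' : x = algebraMap T F n * (algebraMap T F d)⁻¹ := by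
      rw [← hnd]
      field_simp
    rw [hx']
    exact mul_mem (hTB n) hdinv
  exact ⟨Place.ofHeightOneSpectrum (K := K) (F := F) w, hPB⟩

/-- `K(x⁻¹) = K(x)` -/
theorem vdb_adjoin_inv (x : F) : K⟮x⟯ = K⟮x⁻¹⟯ := by
  apply le_antisymm
  · rw [IntermediateField.adjoin_simple_le_iff]
    have h := inv_mem (IntermediateField.mem_adjoin_simple_self K x⁻¹)
    rwa [inv_inv] at h
  · rw [IntermediateField.adjoin_simple_le_iff]
    exact inv_mem (IntermediateField.mem_adjoin_simple_self K x)

/-- **(D1) valDisc, place form**: a proper valuation subring of a function field over an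
algebraically closed field, containing the constants, is the valuation ring of a place. -/
theorem valDiscB_place [IsAlgClosed K] (h : Fermat.Agent.H58.RRHyp K F)
    (V : ValuationSubring F) (hk : ∀ a : K, algebraMap K F a ∈ V) (hV : V ≠ ⊤) :
    ∃ P : Place K F, P.toValuationSubring = V := by
  classical
  obtain ⟨x, hfin, hsep⟩ := Fermat.Agent.H16.ORD.exists_sep_of_rrHyp h
  -- `x` is transcendental
  have hxT : Transcendental K x := by
    intro halg
    obtain ⟨z, hzT⟩ := Fermat.Agent.H16.ORD.sep_exists_transcendental h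
    apply hzT
    have h1 : Algebra.IsAlgebraic K K⟮x⟯ :=
      IntermediateField.isAlgebraic_adjoin_simple halg.isIntegral
    have h2 : Algebra.IsAlgebraic K⟮x⟯ F := Algebra.IsAlgebraic.of_finite _ _
    have h3 : Algebra.IsAlgebraic K F := Algebra.IsAlgebraic.trans K K⟮x⟯ F
    exact Algebra.IsAlgebraic.isAlgebraic z
  rcases V.mem_or_inv_mem x with hx | hx
  · exact vdb_place_of_sep x hxT K⟮x⟯ rfl V hk hx hV
  · have hxT' : Transcendental K x⁻¹ := by
      intro halg
      apply hxT
      have := halg.inv
      rwa [inv_inv] at this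
    exact vdb_place_of_sep x⁻¹ hxT' K⟮x⟯ (vdb_adjoin_inv x) V hk hx hV

/-- **(D1) valDisc**: a proper valuation subring of a function field over an algebraically
closed field, containing the constants, is a principal ideal ring. -/
theorem valDiscB [IsAlgClosed K] (h : Fermat.Agent.H58.RRHyp K F)
    (V : ValuationSubring F) (hk : ∀ a : K, algebraMap K F a ∈ V) (hV : V ≠ ⊤) :
    IsPrincipalIdealRing V := by
  obtain ⟨P, hP⟩ := valDiscB_place h V hk hV
  rw [← hP]
  exact P.isPrincipalIdealRing'

end Fermat.Agent.H40.ORD
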